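/-
S16 / LOWER, conditional glue (helper30, LOWER sub-coordinator).

`lower_of_interface` derives the LOWER statement of the S16 interface

  `∀ P : HeckeAlg, heckeEvalForms p 2 P = 0 → (eisensteinNumerator p : ℤ) ∣ aeval (eisensteinSystem p) P`

from the exports of the LOWER packages, taken as hypotheses:

* `hlin`, `hES`  : S21 (linearity of the period map, range of `periodHomPair`);
* `HT`, `hnat`   : L3, Hecke operators on `Hom(Γ₀(p), A)`, natural in `A`;
* `hinv`         : L3, compatibility with the involution `charInvolution` (on period classes);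
* `heis`         : L3, the Shimura class is an Eisenstein eigenvector;
* `hperiod`      : L4a, Hecke equivariance of the period map;
* `hlift`        : L5, a parabolic integral lift of the Shimura class.

The proof is an application of the landed abstract core `H67.dvd_aeval_of_eigen_mod`.
-/
import Fermat.Agent.S16.H67.LowerCore
import Fermat.Agent.S16.H53.Shimura

set_option autoImplicit false

open CongruenceSubgroup ModularCurve ModularCurve.Period CuspForm
open scoped MatrixGroups

namespace Fermat.Agent.S16.H30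

noncomputable section

/-- The Hecke generator at `ℓ` (that is `U_ℓ` if `ℓ ∣ N` and `T_ℓ` otherwise) acting on the
weight two cusp forms of level `N`. -/
def heckeGenAct (N : ℕ) [NeZero N] (ℓ : Nat.Primes) (f : CuspForm (Gamma0 N) 2) :
    CuspForm (Gamma0 N) 2 :=
  ((heckeFormsGen N 2 ℓ : heckeAlgebra N 2 ∅) : Module.End ℂ (CuspForm (Gamma0 N) 2)) f

theorem heckeGenAct_def (N : ℕ) [NeZero N] (ℓ : Nat.Primes) (f : CuspForm (Gamma0 N) 2) :
    heckeGenAct N ℓ f
      = ((heckeFormsGen N 2 ℓ : heckeAlgebra N 2 ∅) : Module.End ℂ (CuspForm (Gamma0 N) 2)) f :=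
  rfl

/-- Equivariance of `periodHomPair` from equivariance of `periodMap` and compatibility with the
involution. -/
theorem periodHomPair_equivariant (N : ℕ) [NeZero N] (hlin : ExistsPeriodMapLinear N)
    (Tc : (Additive (Gamma0 N) →+ ℂ) →+ (Additive (Gamma0 N) →+ ℂ))
    (t : CuspForm (Gamma0 N) 2 → CuspForm (Gamma0 N) 2)
    (hinv : ∀ f : CuspForm (Gamma0 N) 2,
      Tc (charInvolution N ℂ ℂ (periodMap N f)) = charInvolution N ℂ ℂ (Tc (periodMap N f)))
    (hperiod : ∀ f : CuspForm (Gamma0 N) 2, periodMap N (t f) = Tc (periodMap N f))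
    (f g : CuspForm (Gamma0 N) 2) :
    periodHomPair N (t f, t g) = Tc (periodHomPair N (f, g)) := by
  obtain ⟨pml, hpml, hdef⟩ := periodHomPair_def N hlin
  rw [hdef]
  simp only [LinearMap.coprod_apply, LinearMap.comp_apply, LinearMap.add_apply,
    LinearMap.sub_apply, LinearMap.id_apply, hpml, hperiod, map_add, map_sub, hinv]

/-- **Conditional glue for LOWER.** -/
theorem lower_of_interface (p : ℕ) [Fact p.Prime]
    (hlin : ExistsPeriodMapLinear p)
    (hES : LinearMap.range (periodHomPair p) = parabolicHoms ℂ (Gamma0 p) ℂ)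
    (HT : ∀ (A : Type) [AddCommGroup A],
      Nat.Primes → (Additive (Gamma0 p) →+ A) →+ (Additive (Gamma0 p) →+ A))
    (hnat : ∀ (A B : Type) [AddCommGroup A] [AddCommGroup B] (φ : A →+ B) (ℓ : Nat.Primes)
      (ψ : Additive (Gamma0 p) →+ A), φ.comp (HT A ℓ ψ) = HT B ℓ (φ.comp ψ))
    (hinv : ∀ (ℓ : Nat.Primes) (f : CuspForm (Gamma0 p) 2),
      HT ℂ ℓ (charInvolution p ℂ ℂ (periodMap p f))
        = charInvolution p ℂ ℂ (HT ℂ ℓ (periodMap p f)))
    (hperiod : ∀ (ℓ : Nat.Primes) (f : CuspForm (Gamma0 p) 2),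
      periodMap p (heckeGenAct p ℓ f) = HT ℂ ℓ (periodMap p f))
    (heis : ∀ (lam : (ZMod p)ˣ →* Multiplicative (ZMod (eisensteinNumerator p)))
      (ℓ : Nat.Primes),
      HT (ZMod (eisensteinNumerator p)) ℓ (H53.shimura p lam)
        = eisensteinSystem p ℓ • H53.shimura p lam)
    (hlift : ∃ (lam : (ZMod p)ˣ →* Multiplicative (ZMod (eisensteinNumerator p)))
      (psi : Additive (Gamma0 p) →+ ℤ),
      Function.Surjective lam ∧ psi ∈ parabolicHoms ℤ (Gamma0 p) ℤ ∧
        ∀ gamma : Gamma0 p, ((psi (Additive.ofMul gamma) : ℤ) : ZMod (eisensteinNumerator p))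
          = Multiplicative.toAdd (lam (H53.dUnit p gamma))) :
    ∀ P : HeckeAlg, heckeEvalForms p 2 P = 0 →
      (eisensteinNumerator p : ℤ) ∣ MvPolynomial.aeval (eisensteinSystem p) P := by
  intro P hP
  obtain ⟨lam, psi, hsurj, hpar, hcong⟩ := hlift
  -- the reduction of `psi` modulo `n` is the Shimura class
  have hred : (Int.castAddHom (ZMod (eisensteinNumerator p))).comp psi = H53.shimura p lam := by
    refine AddMonoidHom.ext fun γ => ?_
    exact hcong (Additive.toMul γ)
  -- a value prime to `n`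
  obtain ⟨γ₀, hγ₀⟩ := H53.shimura_surjective (p := p) (lam := lam) hsurj
    (1 : ZMod (eisensteinNumerator p))
  have hcop : IsCoprime (psi (Additive.ofMul γ₀)) (eisensteinNumerator p : ℤ) := by
    have h1 : ((psi (Additive.ofMul γ₀) : ℤ) : ZMod (eisensteinNumerator p)) = 1 := by
      have := DFunLike.congr_fun hred (Additive.ofMul γ₀)
      rw [hγ₀] at this
      exact this
    have h2 : (eisensteinNumerator p : ℤ) ∣ psi (Additive.ofMul γ₀) - 1 := by
      rw [← ZMod.intCast_zmod_eq_zero_iff_dvd]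
      push_cast
      rw [h1, sub_self]
    obtain ⟨c, hc⟩ := h2
    exact ⟨1, -c, by linear_combination hc⟩
  refine H67.dvd_aeval_of_eigen_mod p hES (eisensteinNumerator p) (eisensteinSystem p)
    (fun ℓ => HT ℤ ℓ)
    (fun ℓ => HT ℂ ℓ) ?_ ?_ psi hpar ?_ (Additive.ofMul γ₀) hcop P hP
  · -- naturality for the cast `ℤ → ℂ`
    intro ℓ φ
    exact (hnat ℤ ℂ (Int.castAddHom ℂ) ℓ φ).symm
  · -- equivariance of `periodHomPair`
    intro ℓ f g
    exact periodHomPair_equivariant p hlin (HT ℂ ℓ) (heckeGenAct p ℓ) (hinv ℓ) (hperiod ℓ) f g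
  · -- `psi` is an eigenvector modulo `n`
    intro ℓ γ
    rw [← ZMod.intCast_zmod_eq_zero_iff_dvd]
    have h1 := DFunLike.congr_fun (hnat ℤ (ZMod (eisensteinNumerator p))
      (Int.castAddHom (ZMod (eisensteinNumerator p))) ℓ psi) γ
    rw [hred, heis lam ℓ] at h1
    have h2 : ((HT ℤ ℓ psi γ : ℤ) : ZMod (eisensteinNumerator p))
        = eisensteinSystem p ℓ • H53.shimura p lam γ := h1
    have h3 : H53.shimura p lam γ = ((psi γ : ℤ) : ZMod (eisensteinNumerator p)) :=
      (DFunLike.congr_fun hred γ).symm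
    push_cast
    rw [h2, h3, zsmul_eq_mul, sub_self]

end

end Fermat.Agent.S16.H30
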