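/-
S16 / LOWER, final statement (helper30, LOWER sub-coordinator).

`lower` : every Hecke polynomial `P` which kills the weight two cusp forms of level `p`
has Eisenstein value divisible by `eisensteinNumerator p`.

Assembly of the landed LOWER packages through `H30.lower_of_interface`:
* S21 (Eichler–Shimura) : `S21.result`, `S21.H99.existsPeriodMapLinear`;
* L3 (H27) : Hecke operators on `Hom(Γ₀(N), A)` (transfer formalism), naturality, compatibility
  with the involution, Eisenstein eigen-computation for the Shimura class;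
* L4a (H99) : Hecke equivariance of the period map;
* L5 (H8) : the parabolic integral lift of the Shimura class (on L1 = H97 and H53).
-/
import Fermat.Agent.S16.H30.LowerGlue
import Fermat.Agent.S16.H27.Iota
import Fermat.Agent.S16.H27.Shimura
import Fermat.Agent.S16.H99.PeriodHecke
import Fermat.Agent.S16.H8.ParLift
import Fermat.Agent.S21

set_option autoImplicit false

open CongruenceSubgroup ModularCurve ModularCurve.Period CuspForm Matrix.SpecialLinearGroup
open ModularForm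
open P2MW.S_ModularForm_heckeT_slash_eq_self_of_mem_Gamma0.ModularForm.HeckeSlashInvariance
open scoped MatrixGroups

namespace Fermat.Agent.S16.H30

noncomputable section

theorem fact_prime_coe (ℓ : Nat.Primes) : Fact (ℓ : ℕ).Prime := ⟨ℓ.2⟩

theorem neZero_prime_coe (ℓ : Nat.Primes) : NeZero (ℓ : ℕ) := ⟨ℓ.2.ne_zero⟩

attribute [local instance] fact_prime_coe neZero_prime_coe

/-- The unified Hecke operator on `Hom(Γ₀(N), A)` at the prime `ℓ`: `U_ℓ` if `ℓ ∣ N` and `T_ℓ`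
otherwise (the same case distinction as `CuspForm.heckeFormsGen`). -/
def heckeHomGen (N : ℕ) (A : Type) [AddCommGroup A] (ℓ : Nat.Primes) :
    (Additive (Gamma0 N) →+ A) →+ (Additive (Gamma0 N) →+ A) :=
  if h : (ℓ : ℕ) ∣ N then (H27.homU (ℓ : ℕ) h ℕ A).toAddMonoidHom
  else (H27.homT (ℓ : ℕ) h ℕ A).toAddMonoidHom

theorem heckeHomGen_of_dvd {N : ℕ} (A : Type) [AddCommGroup A] {ℓ : Nat.Primes}
    (h : (ℓ : ℕ) ∣ N) (ψ : Additive (Gamma0 N) →+ A) :
    heckeHomGen N A ℓ ψ = (H27.isHeckeFamily_U (ℓ : ℕ) h).heckeFun ψ := by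
  unfold heckeHomGen
  rw [dif_pos h]
  rfl

theorem heckeHomGen_of_not_dvd {N : ℕ} (A : Type) [AddCommGroup A] {ℓ : Nat.Primes}
    (h : ¬ (ℓ : ℕ) ∣ N) (ψ : Additive (Gamma0 N) →+ A) :
    heckeHomGen N A ℓ ψ = (H27.isHeckeFamily_T (ℓ : ℕ) h).heckeFun ψ := by
  unfold heckeHomGen
  rw [dif_neg h]
  rfl

/-- [L3-nat] naturality in the coefficient group. -/
theorem comp_heckeHomGen (N : ℕ) (A B : Type) [AddCommGroup A] [AddCommGroup B] (φ : A →+ B)
    (ℓ : Nat.Primes) (ψ : Additive (Gamma0 N) →+ A) :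
    φ.comp (heckeHomGen N A ℓ ψ) = heckeHomGen N B ℓ (φ.comp ψ) := by
  by_cases h : (ℓ : ℕ) ∣ N
  · rw [heckeHomGen_of_dvd A h, heckeHomGen_of_dvd B h]
    exact (H27.isHeckeFamily_U (ℓ : ℕ) h).comp_heckeFun φ ψ
  · rw [heckeHomGen_of_not_dvd A h, heckeHomGen_of_not_dvd B h]
    exact (H27.isHeckeFamily_T (ℓ : ℕ) h).comp_heckeFun φ ψ

/-- [L3-inv] compatibility with the involution. -/
theorem heckeHomGen_charInvolution (N : ℕ) (ℓ : Nat.Primes) (ψ : Additive (Gamma0 N) →+ ℂ) :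
    heckeHomGen N ℂ ℓ (charInvolution N ℂ ℂ ψ) = charInvolution N ℂ ℂ (heckeHomGen N ℂ ℓ ψ) := by
  by_cases h : (ℓ : ℕ) ∣ N
  · rw [heckeHomGen_of_dvd ℂ h, heckeHomGen_of_dvd ℂ h]
    exact H27.heckeFun_U_charInvolution (ℓ : ℕ) h ℂ ψ
  · rw [heckeHomGen_of_not_dvd ℂ h, heckeHomGen_of_not_dvd ℂ h]
    exact H27.heckeFun_T_charInvolution (ℓ : ℕ) h ℂ ψ

/-- [L4a] Hecke equivariance of the period map. -/
theorem periodMap_heckeGenAct (N : ℕ) [NeZero N] (ℓ : Nat.Primes) (f : CuspForm (Gamma0 N) 2) :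
    periodMap N (heckeGenAct N ℓ f) = heckeHomGen N ℂ ℓ (periodMap N f) := by
  refine AddMonoidHom.ext fun γ' => ?_
  obtain ⟨γ, rfl⟩ : ∃ γ : Gamma0 N, Additive.ofMul γ = γ' := ⟨Additive.toMul γ', rfl⟩
  by_cases h : (ℓ : ℕ) ∣ N
  · rw [heckeHomGen_of_dvd ℂ h, heckeGenAct_def, heckeFormsGen_of_dvd h, heckeAlgebra.coe_U]
    obtain ⟨hc, c, hrel, hper⟩ := H99.periodMap_heckeULin h f γ
    rw [hper]
    exact ((H27.isHeckeFamily_U (ℓ : ℕ) h).heckeFun_apply_of_rel (periodMap N f) γ _ c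
      hrel).symm
  · rw [heckeHomGen_of_not_dvd ℂ h, heckeGenAct_def, heckeFormsGen_of_not_dvd h,
      heckeAlgebra.coe_T]
    obtain ⟨c, hrel, hper⟩ := H99.periodMap_heckeTLin h f γ
    rw [hper]
    exact ((H27.isHeckeFamily_T (ℓ : ℕ) h).heckeFun_apply_of_rel (periodMap N f) γ _ c
      hrel).symm

/-- The Shimura class of `H53` in the shape of `H27`. -/
theorem shimura_eq (p : ℕ)
    (lam : (ZMod p)ˣ →* Multiplicative (ZMod (eisensteinNumerator p))) :
    H53.shimura p lam = H27.shimura p (MonoidHom.toAdditiveLeft lam) := rfl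

theorem natCast_prime_eq_one (p : ℕ) [Fact p.Prime] : ((p : ℕ) : ZMod (eisensteinNumerator p)) = 1 := by
  have hp : 1 ≤ p := (Fact.out : p.Prime).one_lt.le
  have h1 : ((p - 1 : ℕ) : ZMod (eisensteinNumerator p)) = 0 :=
    (ZMod.natCast_eq_zero_iff _ _).mpr (eisensteinNumerator_dvd p)
  rw [Nat.cast_sub hp, Nat.cast_one, sub_eq_zero] at h1
  exact h1

/-- [L3-eis] the Shimura class is an Eisenstein eigenvector. -/
theorem heckeHomGen_shimura (p : ℕ) [Fact p.Prime]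
    (lam : (ZMod p)ˣ →* Multiplicative (ZMod (eisensteinNumerator p))) (ℓ : Nat.Primes) :
    heckeHomGen p (ZMod (eisensteinNumerator p)) ℓ (H53.shimura p lam)
      = eisensteinSystem p ℓ • H53.shimura p lam := by
  rw [shimura_eq]
  by_cases h : (ℓ : ℕ) ∣ p
  · rw [heckeHomGen_of_dvd _ h, H27.heckeFun_U_shimura (ℓ : ℕ) h, eisensteinSystem_of_dvd h,
      one_smul]
    have hℓp : (ℓ : ℕ) = p := ((Nat.prime_dvd_prime_iff_eq ℓ.2 Fact.out).mp h)
    refine AddMonoidHom.ext fun γ => ?_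
    rw [AddMonoidHom.smul_apply, nsmul_eq_mul, hℓp, natCast_prime_eq_one, one_mul]
  · rw [heckeHomGen_of_not_dvd _ h, H27.heckeFun_T_shimura (ℓ : ℕ) h,
      eisensteinSystem_of_not_dvd h]
    rw [show ((1 : ℤ) + ((ℓ : ℕ) : ℤ)) = (((ℓ : ℕ) + 1 : ℕ) : ℤ) by push_cast; ring,
      natCast_zsmul]

/-- **LOWER.** -/
theorem lower (p : ℕ) [Fact p.Prime] :
    ∀ P : HeckeAlg, heckeEvalForms p 2 P = 0 →
      (eisensteinNumerator p : ℤ) ∣ MvPolynomial.aeval (eisensteinSystem p) P :=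
  lower_of_interface p (Fermat.Agent.S21.H99.existsPeriodMapLinear p)
    (Fermat.Agent.S21.result p).2
    (fun A _ => heckeHomGen p A)
    (fun A B _ _ φ ℓ ψ => comp_heckeHomGen p A B φ ℓ ψ)
    (fun ℓ f => heckeHomGen_charInvolution p ℓ (periodMap p f))
    (fun ℓ f => periodMap_heckeGenAct p ℓ f)
    (fun lam ℓ => heckeHomGen_shimura p lam ℓ)
    (H8.exists_parabolic_lift' p)

end

end Fermat.Agent.S16.H30
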